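import Mathlib.RingTheory.Regular.ProjectiveDimension
import Mathlib.RingTheory.FiniteLength
import Mathlib.RingTheory.SimpleModule.Basic

set_option autoImplicit false

namespace Fermat.Agent.S57

open CategoryTheory IsLocalRing RingTheory.Sequence

/-- Over a Noetherian local ring whose maximal ideal is generated by a regular sequence `rs`,
every module of finite length has projective dimension at most `rs.length`. -/
theorem hasProjectiveDimensionLE_of_isFiniteLength {B : Type} [CommRing B] [IsLocalRing B]
    [IsNoetherianRing B] (rs : List B) (hreg : IsRegular B rs)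
    (hmax : Ideal.ofList rs = maximalIdeal B)
    (V : Type) [AddCommGroup V] [Module B V] (hV : IsFiniteLength B V) :
    HasProjectiveDimensionLE (ModuleCat.of B V) rs.length := by
  induction hV with
  | @of_subsingleton V _ _ _ =>
    have hz : Limits.IsZero (ModuleCat.of B V) := ModuleCat.isZero_of_subsingleton _
    have := hz.hasProjectiveDimensionLT_zero
    exact hasProjectiveDimensionLT_of_ge _ 0 _ (Nat.zero_le _)
  | @of_simple_quotient V _ _ W hs hW ih =>
    obtain ⟨m, hm, ⟨e⟩⟩ := isSimpleModule_iff_quot_maximal.mp hs
    rw [eq_maximalIdeal hm, ← hmax] at e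
    have hk : HasProjectiveDimensionLE (ModuleCat.of B (V ⧸ W)) rs.length := by
      have h1 := ModuleCat.projectiveDimension_quotient_eq_length.{0} rs hreg
      have h2 : HasProjectiveDimensionLE
          (ModuleCat.of B (Shrink.{0} (B ⧸ Ideal.ofList rs))) rs.length := by
        rw [← projectiveDimension_le_iff, h1]
      exact ModuleCat.hasProjectiveDimensionLE_of_linearEquiv
        (M := ModuleCat.of B (Shrink.{0} (B ⧸ Ideal.ofList rs)))
        (N := ModuleCat.of B (V ⧸ W))
        ((Shrink.linearEquiv B (B ⧸ Ideal.ofList rs)).trans e.symm) rs.length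
    -- the short exact sequence `0 → W → V → V ⧸ W → 0`
    have hS : W.mkQ.shortComplexKer.ShortExact :=
      LinearMap.shortExact_shortComplexKer W.mkQ_surjective
    have h1 : HasProjectiveDimensionLE (ModuleCat.of B (LinearMap.ker W.mkQ)) rs.length :=
      ModuleCat.hasProjectiveDimensionLE_of_linearEquiv
        (M := ModuleCat.of B W) (N := ModuleCat.of B (LinearMap.ker W.mkQ))
        (LinearEquiv.ofEq _ _ W.ker_mkQ.symm) rs.length
    exact hS.hasProjectiveDimensionLT_X₂ (rs.length + 1) h1 hk

end Fermat.Agent.S57
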