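import Mathlib.RingTheory.Regular.RegularSequence
import Mathlib.RingTheory.MvPowerSeries.Inverse
import Mathlib.RingTheory.DiscreteValuationRing.Basic

set_option autoImplicit false

namespace Fermat.Agent.S57

open MvPowerSeries

/-- The ideal of power series whose coefficients vanish at every exponent that is zero on `s`. -/
def vanIdeal (𝒪 : Type) [CommRing 𝒪] (r : ℕ) (s : Set (Fin r)) :
    Ideal (MvPowerSeries (Fin r) 𝒪) where
  carrier := {f | ∀ m : Fin r →₀ ℕ, (∀ j ∈ s, m j = 0) → coeff m f = 0}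
  add_mem' := by
    intro f g hf hg m hm
    rw [map_add, hf m hm, hg m hm, add_zero]
  zero_mem' := by
    intro m _
    exact map_zero _
  smul_mem' := by
    intro g f hf m hm
    classical
    rw [smul_eq_mul, coeff_mul]
    apply Finset.sum_eq_zero
    rintro ⟨a, b⟩ hab
    rw [Finset.mem_antidiagonal] at hab
    have hb : coeff b f = 0 := hf b (fun j hj => by
      have h1 := hm j hj
      have h2 : a j + b j = m j := by rw [← hab]; rfl
      omega)
    rw [hb, mul_zero]

variable {𝒪 : Type} [CommRing 𝒪] {r : ℕ}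

theorem mem_vanIdeal {s : Set (Fin r)} {f : MvPowerSeries (Fin r) 𝒪} :
    f ∈ vanIdeal 𝒪 r s ↔ ∀ m : Fin r →₀ ℕ, (∀ j ∈ s, m j = 0) → coeff m f = 0 :=
  Iff.rfl

theorem X_mem_vanIdeal {s : Set (Fin r)} {j : Fin r} (hj : j ∈ s) :
    (X j : MvPowerSeries (Fin r) 𝒪) ∈ vanIdeal 𝒪 r s := by
  classical
  intro m hm
  rw [coeff_X, if_neg]
  intro h
  have := hm j hj
  rw [h] at this
  simp at this

theorem vanIdeal_mono {s t : Set (Fin r)} (h : s ⊆ t) : vanIdeal 𝒪 r s ≤ vanIdeal 𝒪 r t :=
  fun _ hf m hm => hf m (fun j hj => hm j (h hj))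

theorem vanIdeal_eq_span_finset (s : Finset (Fin r)) :
    vanIdeal 𝒪 r (↑s : Set (Fin r)) =
      Ideal.span ((fun j : Fin r => (X j : MvPowerSeries (Fin r) 𝒪)) '' (↑s : Set (Fin r))) := by
  classical
  apply le_antisymm
  · induction s using Finset.induction_on with
    | empty =>
      intro f hf
      have : f = 0 := by
        ext m
        rw [map_zero]
        exact hf m (by simp)
      rw [this]
      exact Submodule.zero_mem _
    | insert j s hj ih =>
      intro f hf
      -- the part of `f` not divisible by `X j`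
      let h : MvPowerSeries (Fin r) 𝒪 := fun m => if m j = 0 then coeff m f else 0
      have hcoeff : ∀ m, coeff m h = if m j = 0 then coeff m f else 0 := fun m => rfl
      have hh : h ∈ vanIdeal 𝒪 r (↑s : Set (Fin r)) := by
        intro m hm
        rw [hcoeff]
        split_ifs with hmj
        · apply hf m
          intro i hi
          rw [Finset.coe_insert, Set.mem_insert_iff] at hi
          rcases hi with rfl | hi
          · exact hmj
          · exact hm i hi
        · rfl
      have hdvd : (X j : MvPowerSeries (Fin r) 𝒪) ∣ f - h := by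
        rw [X_dvd_iff]
        intro m hm
        rw [map_sub, hcoeff, if_pos hm, sub_self]
      obtain ⟨g, hg⟩ := hdvd
      have hfeq : f = X j * g + h := by rw [← hg]; ring
      rw [hfeq]
      apply Ideal.add_mem
      · apply Ideal.mul_mem_right
        apply Ideal.subset_span
        exact ⟨j, by simp, rfl⟩
      · refine Ideal.span_mono ?_ (ih hh)
        apply Set.image_mono
        simp
  · rw [Ideal.span_le]
    rintro _ ⟨j, hj, rfl⟩
    exact X_mem_vanIdeal hj

theorem vanIdeal_eq_span (s : Set (Fin r)) :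
    vanIdeal 𝒪 r s =
      Ideal.span ((fun j : Fin r => (X j : MvPowerSeries (Fin r) 𝒪)) '' s) := by
  classical
  have h := vanIdeal_eq_span_finset (𝒪 := 𝒪) (Set.toFinite s).toFinset
  rwa [Set.Finite.coe_toFinset] at h

theorem mem_vanIdeal_of_X_mul_mem {s : Set (Fin r)} {i : Fin r} (hi : i ∉ s)
    {f : MvPowerSeries (Fin r) 𝒪} (hf : X i * f ∈ vanIdeal 𝒪 r s) : f ∈ vanIdeal 𝒪 r s := by
  classical
  intro m hm
  have h1 := hf (Finsupp.single i 1 + m) (by
    intro j hj
    have hji : j ≠ i := fun h => hi (h ▸ hj)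
    simp [hm j hj, hji.symm])
  rw [X_def, coeff_add_monomial_mul, one_mul] at h1
  exact h1

theorem mem_vanIdeal_univ {f : MvPowerSeries (Fin r) 𝒪} :
    f ∈ vanIdeal 𝒪 r Set.univ ↔ constantCoeff f = 0 := by
  rw [mem_vanIdeal, ← coeff_zero_eq_constantCoeff_apply]
  constructor
  · intro h
    exact h 0 (by simp)
  · intro h m hm
    have : m = 0 := by
      ext j
      simpa using hm j (Set.mem_univ j)
    rw [this]
    exact h

/-- The list `X 0, …, X (r-1), C ϖ`. -/
noncomputable def regList (𝒪 : Type) [CommRing 𝒪] (r : ℕ) (ϖ : 𝒪) :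
    List (MvPowerSeries (Fin r) 𝒪) :=
  List.ofFn (fun i : Fin r => (MvPowerSeries.X i : MvPowerSeries (Fin r) 𝒪)) ++ [MvPowerSeries.C ϖ]

theorem ofList_take_ofFn_X (i : ℕ) :
    Ideal.ofList ((List.ofFn (fun i : Fin r => (X i : MvPowerSeries (Fin r) 𝒪))).take i) =
      vanIdeal 𝒪 r {j : Fin r | j.val < i} := by
  rw [vanIdeal_eq_span]
  have hset : {x | x ∈ (List.ofFn (fun i : Fin r => (X i : MvPowerSeries (Fin r) 𝒪))).take i} =
      (fun j : Fin r => (X j : MvPowerSeries (Fin r) 𝒪)) '' {j : Fin r | j.val < i} := by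
    ext x
    constructor
    · intro hx
      obtain ⟨k, hk, rfl⟩ := List.mem_take_iff_getElem.mp hx
      rw [List.length_ofFn] at hk
      have hk1 : k < r := lt_of_lt_of_le hk (min_le_right _ _)
      have hk2 : k < i := lt_of_lt_of_le hk (min_le_left _ _)
      exact ⟨⟨k, hk1⟩, hk2, by rw [List.getElem_ofFn]⟩
    · rintro ⟨j, hj, rfl⟩
      refine List.mem_take_iff_getElem.mpr ⟨j.val, ?_, ?_⟩
      · rw [List.length_ofFn]
        exact lt_min hj j.isLt
      · rw [List.getElem_ofFn]
  show Ideal.span {x | x ∈ (List.ofFn (fun i : Fin r => (X i : MvPowerSeries (Fin r) 𝒪))).take i} = _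
  rw [hset]

theorem ofList_ofFn_X :
    Ideal.ofList (List.ofFn (fun i : Fin r => (X i : MvPowerSeries (Fin r) 𝒪))) =
      vanIdeal 𝒪 r Set.univ := by
  rw [vanIdeal_eq_span]
  have hset : {x | x ∈ List.ofFn (fun i : Fin r => (X i : MvPowerSeries (Fin r) 𝒪))} =
      (fun j : Fin r => (X j : MvPowerSeries (Fin r) 𝒪)) '' Set.univ := by
    ext x
    constructor
    · intro hx
      obtain ⟨j, rfl⟩ := (List.mem_ofFn' _ _).mp hx
      exact ⟨j, Set.mem_univ _, rfl⟩
    · rintro ⟨j, -, rfl⟩
      exact (List.mem_ofFn' _ _).mpr ⟨j, rfl⟩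
  show Ideal.span {x | x ∈ List.ofFn (fun i : Fin r => (X i : MvPowerSeries (Fin r) 𝒪))} = _
  rw [hset]

theorem regList_isWeaklyRegular (𝒪 : Type) [CommRing 𝒪] [IsDomain 𝒪] (r : ℕ) (ϖ : 𝒪)
    (hϖ : ϖ ≠ 0) :
    RingTheory.Sequence.IsWeaklyRegular (MvPowerSeries (Fin r) 𝒪) (regList 𝒪 r ϖ) := by
  rw [regList, RingTheory.Sequence.isWeaklyRegular_append_iff]
  constructor
  · rw [RingTheory.Sequence.isWeaklyRegular_iff]
    intro i hi
    rw [isSMulRegular_quotient_iff_mem_of_smul_mem]
    intro x hx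
    rw [smul_eq_mul, Ideal.mul_top] at hx ⊢
    rw [ofList_take_ofFn_X] at hx ⊢
    rw [List.getElem_ofFn, smul_eq_mul] at hx
    exact mem_vanIdeal_of_X_mul_mem (by simp) hx
  · rw [RingTheory.Sequence.isWeaklyRegular_singleton_iff,
      isSMulRegular_quotient_iff_mem_of_smul_mem]
    intro x hx
    rw [smul_eq_mul, Ideal.mul_top] at hx ⊢
    rw [ofList_ofFn_X, mem_vanIdeal_univ] at hx ⊢
    rw [smul_eq_mul, map_mul, constantCoeff_C] at hx
    exact (mul_eq_zero.mp hx).resolve_left hϖ

theorem ofList_regList (𝒪 : Type) [CommRing 𝒪] [IsDomain 𝒪] [IsDiscreteValuationRing 𝒪] (r : ℕ)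
    (ϖ : 𝒪) (hϖ : Irreducible ϖ) :
    Ideal.ofList (regList 𝒪 r ϖ) = IsLocalRing.maximalIdeal (MvPowerSeries (Fin r) 𝒪) := by
  rw [regList, Ideal.ofList_append, ofList_ofFn_X, Ideal.ofList_singleton]
  ext f
  rw [IsLocalRing.mem_maximalIdeal, mem_nonunits_iff, isUnit_iff_constantCoeff,
    ← mem_nonunits_iff, ← IsLocalRing.mem_maximalIdeal,
    hϖ.maximalIdeal_eq, Ideal.mem_span_singleton]
  constructor
  · intro hf
    obtain ⟨g, hg, h, hh, rfl⟩ := Submodule.mem_sup.mp hf
    rw [mem_vanIdeal_univ] at hg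
    obtain ⟨c, rfl⟩ := Ideal.mem_span_singleton.mp hh
    rw [map_add, hg, zero_add, map_mul, constantCoeff_C]
    exact dvd_mul_right _ _
  · rintro ⟨c, hc⟩
    have : f = (f - C ϖ * C c) + C ϖ * C c := by ring
    rw [this]
    apply Submodule.add_mem_sup
    · rw [mem_vanIdeal_univ, map_sub, map_mul, constantCoeff_C, constantCoeff_C, hc, sub_self]
    · exact Ideal.mem_span_singleton.mpr (dvd_mul_right _ _)

end Fermat.Agent.S57
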