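import Mathlib.RingTheory.Regular.RegularSequence
import Mathlib.RingTheory.Regular.Flat
import Mathlib.RingTheory.FiniteLength
import Mathlib.RingTheory.SimpleModule.Basic
import Mathlib.Algebra.Module.Torsion.Basic
import Mathlib.LinearAlgebra.TensorProduct.Basic

set_option autoImplicit false
set_option linter.style.haveILetI false

namespace Fermat.Agent.S57

open RingTheory.Sequence

/-- If `N` is a `B`-module which is free via `φ : A →+* B` on the finite family `b`,
a weakly regular sequence of `A` maps to a weakly regular sequence on `N`. -/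
theorem isWeaklyRegular_map_of_free_via {A B N : Type*} [CommRing A] [CommRing B]
    [AddCommGroup N] [Module B N] (φ : A →+* B) {d : ℕ} (b : Fin d → N)
    (hspan : ∀ x : N, ∃ c : Fin d → A, x = ∑ i, φ (c i) • b i)
    (hrel : ∀ c : Fin d → A, ∑ i, φ (c i) • b i = 0 → ∀ i, c i = 0)
    (rs : List A) (h : IsWeaklyRegular A rs) : IsWeaklyRegular N (rs.map φ) := by
  letI : Algebra A B := φ.toAlgebra
  letI : Module A N := Module.compHom N φ
  haveI : IsScalarTower A B N := ⟨fun a b n => by
    show (φ a * b) • n = φ a • (b • n)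
    rw [mul_smul]⟩
  have hli : LinearIndependent A b := by
    rw [Fintype.linearIndependent_iff]
    intro c hc i
    exact hrel c hc i
  have hsp : ⊤ ≤ Submodule.span A (Set.range b) := by
    intro x _
    obtain ⟨c, rfl⟩ := hspan x
    exact Submodule.sum_mem _ (fun i _ =>
      Submodule.smul_mem _ (c i) (Submodule.subset_span ⟨i, rfl⟩))
  haveI : Module.Free A N := Module.Free.of_basis (Module.Basis.mk hli hsp)
  have h1 : IsWeaklyRegular (TensorProduct A N A) rs := h.isWeaklyRegular_lTensor
  have h2 : IsWeaklyRegular N rs :=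
    (LinearEquiv.isWeaklyRegular_congr (TensorProduct.rid A N) rs).mp h1
  exact (isWeaklyRegular_map_algebraMap_iff B N rs).mpr h2

/-- If `N` is a `B`-module spanned via `φ : A →+* B` by a finite family, then the quotient
of `N` by the extension of a maximal ideal of `A` has finite length over `B`. -/
theorem isFiniteLength_quotient_map_smul_top {A B N : Type*} [CommRing A] [CommRing B]
    [IsNoetherianRing B] [AddCommGroup N] [Module B N] (φ : A →+* B) {d : ℕ} (b : Fin d → N)
    (hspan : ∀ x : N, ∃ c : Fin d → A, x = ∑ i, φ (c i) • b i)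
    (𝔞 : Ideal A) [h𝔞 : 𝔞.IsMaximal] :
    IsFiniteLength B (N ⧸ (𝔞.map φ • ⊤ : Submodule B N)) := by
  letI : Algebra A B := φ.toAlgebra
  letI : Module A N := Module.compHom N φ
  haveI : IsScalarTower A B N := ⟨fun a b n => by
    show (φ a * b) • n = φ a • (b • n)
    rw [mul_smul]⟩
  have hfinA : Module.Finite A N := by
    refine ⟨⟨(Set.finite_range b).toFinset, top_unique ?_⟩⟩
    intro x _
    obtain ⟨c, rfl⟩ := hspan x
    exact Submodule.sum_mem _ (fun i _ =>
      Submodule.smul_mem _ (c i) (Submodule.subset_span (by simp)))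
  have hfinB : Module.Finite B N := by
    refine ⟨⟨(Set.finite_range b).toFinset, top_unique ?_⟩⟩
    intro x _
    obtain ⟨c, rfl⟩ := hspan x
    exact Submodule.sum_mem _ (fun i _ =>
      Submodule.smul_mem _ (φ (c i)) (Submodule.subset_span (by simp)))
  let f : N →ₗ[A] (N ⧸ (𝔞.map φ • ⊤ : Submodule B N)) :=
    { toFun := Submodule.Quotient.mk
      map_add' := fun _ _ => rfl
      map_smul' := fun _ _ => rfl }
  have hfinAQ : Module.Finite A (N ⧸ (𝔞.map φ • ⊤ : Submodule B N)) :=
    Module.Finite.of_surjective f (Submodule.Quotient.mk_surjective _)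
  have htors : Module.IsTorsionBySet A (N ⧸ (𝔞.map φ • ⊤ : Submodule B N)) 𝔞 := by
    intro q a
    obtain ⟨n, rfl⟩ := Submodule.Quotient.mk_surjective _ q
    rw [← Submodule.Quotient.mk_smul, Submodule.Quotient.mk_eq_zero]
    exact Submodule.smul_mem_smul (Ideal.mem_map_of_mem φ a.2) Submodule.mem_top
  haveI : IsSemisimpleModule A (N ⧸ (𝔞.map φ • ⊤ : Submodule B N)) := by
    letI := htors.module
    letI : Field (A ⧸ 𝔞) := Ideal.Quotient.field 𝔞
    exact htors.isSemisimpleModule_iff.mp inferInstance
  haveI : IsArtinian A (N ⧸ (𝔞.map φ • ⊤ : Submodule B N)) := inferInstance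
  haveI : IsArtinian B (N ⧸ (𝔞.map φ • ⊤ : Submodule B N)) := isArtinian_of_tower A inferInstance
  exact isFiniteLength_iff_isNoetherian_isArtinian.mpr ⟨inferInstance, inferInstance⟩

end Fermat.Agent.S57
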