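import Fermat.Statements.S57
import Fermat.Agent.S57.RegSeq
import Fermat.Agent.S57.PdLen
import Fermat.Agent.S57.Transfer
import Mathlib.RingTheory.LocalRing.Module
import Mathlib.RingTheory.MvPowerSeries.Equiv

set_option autoImplicit false

namespace Fermat.Agent.S57

open CategoryTheory IsLocalRing RingTheory.Sequence

/-- The patched module of a patching level with trivial relation ideal is free over the
power series ring (for its original module structure). -/
theorem free_N {𝒪 : Type} [CommRing 𝒪] [IsDomain 𝒪] [IsDiscreteValuationRing 𝒪]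
    {r : ℕ} {R : Type} [CommRing R] [Algebra 𝒪 R]
    {M : Type} [AddCommGroup M] [Module R M] [Nontrivial M]
    (L : Algebra.PatchingLevel 𝒪 r R M ⊥) :
    Module.Free (MvPowerSeries (Fin r) 𝒪) L.N := by
  obtain ⟨ϖ, hϖ⟩ := IsDiscreteValuationRing.exists_irreducible 𝒪
  have hwr : IsWeaklyRegular (MvPowerSeries (Fin r) 𝒪) (regList 𝒪 r ϖ) :=
    regList_isWeaklyRegular 𝒪 r ϖ hϖ.ne_zero
  have hmax : Ideal.ofList (regList 𝒪 r ϖ) = maximalIdeal (MvPowerSeries (Fin r) 𝒪) :=
    ofList_regList 𝒪 r ϖ hϖ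
  have hreg : IsRegular (MvPowerSeries (Fin r) 𝒪) (regList 𝒪 r ϖ) := ⟨hwr, by
    rw [smul_eq_mul, Ideal.mul_top, hmax]
    exact (Ideal.IsMaximal.ne_top inferInstance).symm⟩
  have hspan : ∀ x : L.N, ∃ c : Fin L.d → MvPowerSeries (Fin r) 𝒪,
      x = ∑ i, L.φ.toRingHom (c i) • L.b i := L.b_span
  have hrel : ∀ c : Fin L.d → MvPowerSeries (Fin r) 𝒪,
      ∑ i, L.φ.toRingHom (c i) • L.b i = 0 → ∀ i, c i = 0 :=
    fun c hc i => by simpa using (L.b_rel c).mp hc i
  have hN : IsWeaklyRegular L.N ((regList 𝒪 r ϖ).map L.φ.toRingHom) :=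
    isWeaklyRegular_map_of_free_via L.φ.toRingHom L.b hspan hrel _ hwr
  have hntR : Nontrivial R := Module.nontrivial R M
  have hntN : Nontrivial L.N := L.π_surjective.nontrivial
  have hmem : ∀ x ∈ (regList 𝒪 r ϖ).map L.φ.toRingHom,
      x ∈ maximalIdeal (MvPowerSeries (Fin r) 𝒪) := by
    intro x hx
    obtain ⟨y, hy, rfl⟩ := List.mem_map.mp hx
    rcases List.mem_append.mp hy with hy | hy
    · obtain ⟨i, rfl⟩ := (List.mem_ofFn' _ _).mp hy
      by_contra hcon
      have hu : IsUnit (L.φ (MvPowerSeries.X i)) := by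
        simpa using hcon
      have := hu.map L.ψ
      rw [L.ψ_φ_X i] at this
      exact not_isUnit_zero this
    · rw [List.mem_singleton] at hy
      subst hy
      have h1 : L.φ.toRingHom (MvPowerSeries.C ϖ) = MvPowerSeries.C ϖ := by
        have := L.φ.commutes ϖ
        simpa [MvPowerSeries.algebraMap_apply] using this
      rw [h1, ← hmax]
      exact Ideal.subset_span (by simp [regList])
  have hfin : Module.Finite (MvPowerSeries (Fin r) 𝒪) L.N := by
    refine ⟨⟨(Set.finite_range L.b).toFinset, top_unique ?_⟩⟩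
    intro x _
    obtain ⟨c, rfl⟩ := L.b_span x
    exact Submodule.sum_mem _ (fun i _ =>
      Submodule.smul_mem _ _ (Submodule.subset_span (by simp)))
  have hpd := ModuleCat.projectiveDimension_quotient_eq_add_length_of_isWeaklyRegular.{0}
    (ModuleCat.of (MvPowerSeries (Fin r) 𝒪) L.N) ((regList 𝒪 r ϖ).map L.φ.toRingHom) hN hmem
  have hfl : IsFiniteLength (MvPowerSeries (Fin r) 𝒪)
      (L.N ⧸ (Ideal.ofList ((regList 𝒪 r ϖ).map L.φ.toRingHom) • ⊤ :
        Submodule (MvPowerSeries (Fin r) 𝒪) L.N)) := by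
    have := isFiniteLength_quotient_map_smul_top L.φ.toRingHom L.b hspan
      (maximalIdeal (MvPowerSeries (Fin r) 𝒪))
    rwa [← hmax, Ideal.map_ofList] at this
  have hle := hasProjectiveDimensionLE_of_isFiniteLength _ hreg hmax _ hfl
  rw [← projectiveDimension_le_iff] at hle
  rw [List.length_map] at hpd
  have hpd' : projectiveDimension (ModuleCat.of (MvPowerSeries (Fin r) 𝒪) L.N) +
      ((regList 𝒪 r ϖ).length : WithBot ℕ∞) ≤ (0 : WithBot ℕ∞) + ((regList 𝒪 r ϖ).length : ℕ) := by
    rw [zero_add, ← hpd]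
    exact hle
  have h0 : projectiveDimension (ModuleCat.of (MvPowerSeries (Fin r) 𝒪) L.N) ≤ ((0 : ℕ) : WithBot ℕ∞) := by
    simpa using ENat.WithBot.add_le_add_natCast_right_iff.mp hpd'
  rw [projectiveDimension_le_iff] at h0
  have hproj : Projective (ModuleCat.of (MvPowerSeries (Fin r) 𝒪) L.N) :=
    (projective_iff_hasProjectiveDimensionLE_zero _).mpr h0
  have : Module.Projective (MvPowerSeries (Fin r) 𝒪) L.N := (IsProjective.iff_projective _).mpr hproj
  exact Module.free_of_flat_of_isLocalRing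

end Fermat.Agent.S57
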