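import Mathlib.RingTheory.Regular.ProjectiveDimension
import Mathlib.RingTheory.FiniteLength

set_option autoImplicit false

namespace Fermat.Agent.S57

open CategoryTheory IsLocalRing

universe u

/-- Over a local ring, a finite length module has projective dimension below any strict
bound for the projective dimension of the residue field. -/
theorem hasProjectiveDimensionLT_of_isFiniteLength
    {R : Type u} [CommRing R] [IsLocalRing R] (n : ℕ)
    (hk : HasProjectiveDimensionLT (ModuleCat.of R (R ⧸ maximalIdeal R)) n)
    (L : Type u) [AddCommGroup L] [Module R L] (hL : IsFiniteLength R L) :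
    HasProjectiveDimensionLT (ModuleCat.of R L) n := by
  induction hL with
  | @of_subsingleton M _ _ _ =>
    have hz : Limits.IsZero (ModuleCat.of R M) :=
      ModuleCat.isZero_of_subsingleton (ModuleCat.of R M)
    have := hz.hasProjectiveDimensionLT_zero
    exact hasProjectiveDimensionLT_of_ge (ModuleCat.of R M) 0 n (Nat.zero_le n)
  | @of_simple_quotient M _ _ N hsimple _ ih =>
    obtain ⟨I, hI, ⟨e⟩⟩ := isSimpleModule_iff_quot_maximal.mp hsimple
    have hIeq : I = maximalIdeal R := IsLocalRing.eq_maximalIdeal hI
    subst hIeq
    have hS := LinearMap.shortExact_shortComplexKer (Submodule.mkQ_surjective N)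
    have h1 : HasProjectiveDimensionLT (N.mkQ.shortComplexKer).X₁ n := by
      have e1 : (ModuleCat.of R N) ≅ (N.mkQ.shortComplexKer).X₁ :=
        (LinearEquiv.ofEq N (LinearMap.ker N.mkQ) (Submodule.ker_mkQ N).symm).toModuleIso
      exact hasProjectiveDimensionLT_of_iso e1 n
    have h3 : HasProjectiveDimensionLT (N.mkQ.shortComplexKer).X₃ n := by
      have e3 : (ModuleCat.of R (R ⧸ maximalIdeal R)) ≅ (N.mkQ.shortComplexKer).X₃ :=
        e.symm.toModuleIso
      exact hasProjectiveDimensionLT_of_iso e3 n
    exact hS.hasProjectiveDimensionLT_X₂ n h1 h3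

end Fermat.Agent.S57
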